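import Fermat.Agent.Mazur.CuspClass.Places
import Fermat.Agent.Mazur.Disc.Hecke

/-!
# The Hecke operators `T_l` (`l ≠ p` prime) fix the cusp class of `X₀(p)` up to `l + 1`
-/

noncomputable section

open AlgebraicCurve ModularCurve IntermediateField CongruenceSubgroup

namespace Fermat.Agent.Mazur.CuspClass

local notation "Qbar" => AlgebraicClosure ℚ

variable (p l : ℕ) [Fact p.Prime] [Fact l.Prime]

/-- The inclusion of level `l` into level `p l`. -/
def lowerIncl : modularFunctionFieldBar l →ₐ[Qbar] modularFunctionFieldBar (p * l) :=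
  IntermediateField.inclusion
    (IntermediateField.adjoin.mono _ _ _ (Set.image_mono (full_degeneracy_le (dvd_mul_left l p))))

@[simp]
theorem coe_lowerIncl (x : modularFunctionFieldBar l) :
    (lowerIncl p l x : LaurentSeries Qbar) = (x : LaurentSeries Qbar) :=
  IntermediateField.coe_inclusion _ x

theorem lowerIncl_jBar : lowerIncl p l (jBar l) = heckeAlphaBar Qbar p l (jBar p) :=
  Subtype.ext (by rw [coe_lowerIncl, coe_heckeAlphaBar]; rfl)

theorem lowerIncl_jNBar : lowerIncl p l (jNBar l) = heckeBetaBar Qbar p l (jBar p) := by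
  refine Subtype.ext ?_
  rw [coe_lowerIncl, coe_heckeBetaBar]
  show coeffEmb Qbar (qExpand ℚ l jq) = qExpand Qbar l (coeffEmb Qbar jq)
  rw [coeffEmb, coeffMap_qExpand]

theorem finrankAlong_alpha_eq (hlp : ¬ l ∣ p) :
    finrankAlong Qbar (heckeAlphaBar Qbar p l) = l + 1 := by
  rw [Hecke.finrankAlong_alpha, EichlerShimura.relIndex_Gamma0_prime Fact.out hlp]

/-- The cusp of level `p l` over `∞` with ramification `l` along `β`. -/
abbrev topPlace : XPlace (p * l) := inftyPlace (p * l)

theorem restrict_top_alpha :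
    (topPlace p l).restrictAlong (heckeAlphaBar Qbar p l) (Hecke.alphaIntegral Qbar p l) =
        inftyPlace p ∧
      (topPlace p l).ramificationIndexAlong (heckeAlphaBar Qbar p l) = 1 :=
  restrictAlong_eq_of_ord _ _ _ _ one_pos fun x hx => by
    rw [isInfty_inftyPlace (p * l) _ (by simpa using hx), coe_heckeAlphaBar,
      isInfty_inftyPlace p x hx, Nat.cast_one, one_mul]

theorem restrict_top_beta :
    (topPlace p l).restrictAlong (heckeBetaBar Qbar p l) (Hecke.betaIntegral Qbar p l) =
        inftyPlace p ∧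
      (topPlace p l).ramificationIndexAlong (heckeBetaBar Qbar p l) = l :=
  restrictAlong_eq_of_ord _ _ _ _ (Fact.out : l.Prime).pos fun x hx => by
    rw [isInfty_inftyPlace (p * l) _ (by simpa using hx), coe_heckeBetaBar,
      isInfty_inftyPlace p x hx, Disc.order_qExpand]

theorem exists_low_place (hlp : ¬ l ∣ p) : ∃ w : XPlace (p * l),
    (w.restrictAlong (heckeAlphaBar Qbar p l) (Hecke.alphaIntegral Qbar p l) = inftyPlace p ∧
      w.ramificationIndexAlong (heckeAlphaBar Qbar p l) = l) ∧
    (w.restrictAlong (heckeBetaBar Qbar p l) (Hecke.betaIntegral Qbar p l) = inftyPlace p ∧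
      w.ramificationIndexAlong (heckeBetaBar Qbar p l) = 1) := by
  obtain ⟨τ, hC, hα, hβ⟩ := Disc.exists_swapHom (N := p) (l := l) Qbar
    (IsAlgClosed.lift : Qbar →ₐ[ℚ] ℂ).toRingHom hlp
  obtain ⟨w, hw⟩ := exists_place_of_series τ hC (f := heckeBetaBar Qbar p l (jBar p))
    (by rw [hβ]; exact order_coe_jBar p)
  refine ⟨w, restrictAlong_eq_of_ord _ _ _ _ (Fact.out : l.Prime).pos fun x hx => ?_,
    restrictAlong_eq_of_ord _ _ _ _ one_pos fun x hx => ?_⟩
  · rw [hw _ (by simpa using hx), hα, isInfty_inftyPlace p x hx, Disc.order_qExpand]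
  · rw [hw _ (by simpa using hx), hβ, isInfty_inftyPlace p x hx, Nat.cast_one, one_mul]

theorem top_ne {w : XPlace (p * l)}
    (hw : w.ramificationIndexAlong (heckeBetaBar Qbar p l) = 1) : topPlace p l ≠ w := fun h => by
  have h1 := (restrict_top_beta p l).2
  rw [h, hw] at h1
  exact (Fact.out : l.Prime).ne_one h1.symm

/-- A place over `0` along `β` lies over `0` along `α`. -/
theorem restrictAlong_alpha_of_beta_zero (hlp : ¬ l ∣ p) {u : XPlace (p * l)}
    (hu : u.restrictAlong (heckeBetaBar Qbar p l) (Hecke.betaIntegral Qbar p l) = zeroPlace p) :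
    u.restrictAlong (heckeAlphaBar Qbar p l) (Hecke.alphaIntegral Qbar p l) = zeroPlace p := by
  have hβint := Hecke.betaIntegral Qbar p l
  have hαint := Hecke.alphaIntegral Qbar p l
  have hι := Hecke.isIntegralAlong (lowerIncl p l)
  have he :
      ∀ {F' : Type} [Field F'] [Algebra Qbar F'] (φ : F' →ₐ[Qbar] modularFunctionFieldBar (p * l))
      (hφ : φ.toRingHom.IsIntegral), (0 : ℤ) < u.ramificationIndexAlong φ := fun φ hφ => by
    exact_mod_cast ramification_pos φ hφ u
  have h1 : u.ord (lowerIncl p l (jNBar l)) < 0 := by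
    rw [lowerIncl_jNBar, Place.ord_restrictAlong _ hβint, hu, ord_zeroPlace_jBar]
    exact mul_neg_of_pos_of_neg (he _ hβint) (by simp [(Fact.out : p.Prime).pos])
  have h2 : (u.restrictAlong (lowerIncl p l) hι).ord (jNBar l) < 0 := by
    rw [Place.ord_restrictAlong _ hι] at h1
    exact neg_of_mul_neg_right h1 (he _ hι).le
  have h3 : (u.restrictAlong (lowerIncl p l) hι).ord (jBar l) < 0 := by
    rcases eq_cusp_of_ord_jNBar l h2 with h | h <;> rw [h]
    · rw [ord_infty_jBar]; norm_num
    · rw [ord_zeroPlace_jBar]; simp [(Fact.out : l.Prime).pos]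
  have h4 : u.ord (heckeAlphaBar Qbar p l (jBar p)) < 0 := by
    rw [← lowerIncl_jBar, Place.ord_restrictAlong _ hι]
    exact mul_neg_of_pos_of_neg (he _ hι) h3
  rw [Place.ord_restrictAlong _ hαint] at h4
  rcases eq_cusp_of_ord_jBar p (neg_of_mul_neg_right h4 (he _ hαint).le) with h | h
  · exfalso
    obtain ⟨w, ⟨hwα, hweα⟩, ⟨hwβ, hweβ⟩⟩ := exists_low_place p l hlp
    obtain ⟨htα, hteα⟩ := restrict_top_alpha p l
    rcases eq_or_eq_of_restrictAlong_eq _ _ (top_ne p l hweβ) htα hwα
      (by rw [hteα, hweα, finrankAlong_alpha_eq p l hlp, add_comm]) h with rfl | rfl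
    · exact infty_ne_zero p ((restrict_top_beta p l).1.symm.trans hu)
    · exact infty_ne_zero p (hwβ.symm.trans hu)
  · exact h

/-- `T_l 0 = (l + 1) 0` on divisors. -/
theorem heckeDiv_zero (hlp : ¬ l ∣ p) :
    Divisor.correspondence (heckeBetaBar Qbar p l) (heckeAlphaBar Qbar p l)
        (Hecke.betaIntegral Qbar p l) (Hecke.alphaIntegral Qbar p l)
        (Finsupp.single (zeroPlace p) 1) =
      Finsupp.single (zeroPlace p) ((l : ℤ) + 1) := by
  rw [Divisor.correspondence_apply, pushforward_eq_single (z := zeroPlace p) _ _ _ fun u hu => ?_,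
    Divisor.degree_pullbackAlong _ _ (Hecke.fundamentalIdentityAlong _ _),
    Disc.finrankAlong_beta p l hlp, Divisor.degree_single, FF.place_deg_eq_one]
  · simp
  · refine restrictAlong_alpha_of_beta_zero p l hlp ?_
    rw [Finsupp.mem_support_iff, Divisor.pullbackAlong_apply] at hu
    by_contra hne
    exact hu (by rw [Finsupp.single_eq_of_ne hne, mul_zero])

/-- The divisor `0 - ∞`. -/
def cuspDiv : Divisor.degZero (K := Qbar) (F := modularFunctionFieldBar p) :=
  ⟨Finsupp.single (zeroPlace p) 1 - Finsupp.single (inftyPlace p) 1, by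
    rw [Divisor.mem_degZero, map_sub, Divisor.degree_single, Divisor.degree_single,
      deg_eq_deg p (zeroPlace p) (inftyPlace p), sub_self]⟩

/-- The cusp class. -/
def cuspClass : JZero p := Pic0.mk (cuspDiv p)

/-- The cusp class is Eisenstein: `T_q c = (1 + q) c` for `q ≠ p`. -/
theorem heckeOperatorBar_cuspClass (q : Nat.Primes) (hq : ¬ (q : ℕ) ∣ p) :
    heckeOperatorBar p q (cuspClass p) = (1 + (q : ℕ)) • cuspClass p := by
  have : Fact (q : ℕ).Prime := ⟨q.2⟩
  rw [cuspClass, Hecke.heckeOperatorBar_mk]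
  refine (congrArg Pic0.mk (Subtype.ext ?_)).trans
      (QuotientAddGroup.mk_nsmul _ (1 + (q : ℕ)) (a := cuspDiv p))
  rw [Pic0.coe_degZeroCorrespondence, AddSubgroupClass.coe_nsmul]
  show Divisor.correspondence _ _ _ _
      (Finsupp.single (zeroPlace p) 1 - Finsupp.single (inftyPlace p) 1) =
    (1 + (q : ℕ)) • (Finsupp.single (zeroPlace p) (1 : ℤ) - Finsupp.single (inftyPlace p) 1)
  have hinf : Divisor.correspondence _ _ _ _ (Finsupp.single (inftyPlace p) 1) = _ :=
    Disc.corr_infty (l := q) hq (isInfty_inftyPlace p)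
  rw [map_sub, heckeDiv_zero p q hq]
  erw [hinf]
  rw [nsmul_sub, Finsupp.smul_single, Finsupp.smul_single, nsmul_one, Nat.cast_add, Nat.cast_one,
    add_comm (1 : ℤ)]

end Fermat.Agent.Mazur.CuspClass
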