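import Fermat.Prelude.Def_ModularCurve_ModularUnit
import Fermat.Prelude.Def_ModularCurve_X0ModL
import Fermat.Agent.EichlerShimura.Series

/-!
# The modular unit is not a high power in characteristic `P`
-/

noncomputable section

open ModularCurve Filter Topology
open scoped PowerSeries.WithPiTopology

namespace Fermat.Agent.Mazur.CuspClass

theorem coeff_one_partial (s : Finset ℕ) :
    PowerSeries.constantCoeff (∏ n ∈ s, (1 - PowerSeries.X ^ (n + 1) : PowerSeries ℤ)) = 1 ∧
      PowerSeries.coeff 1 (∏ n ∈ s, (1 - PowerSeries.X ^ (n + 1) : PowerSeries ℤ)) =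
        if 0 ∈ s then -1 else 0 := by
  induction s using Finset.induction with
  | empty => simp
  | insert a s ha ih =>
    rw [Finset.prod_insert ha]
    constructor
    · rw [map_mul, ih.1, mul_one]
      simp
    · rw [PowerSeries.coeff_one_mul, ih.1, ih.2, mul_one]
      by_cases h : a = 0
      · subst h
        simp [ha, PowerSeries.coeff_X]
      · have h' : (1 : ℕ) ≠ a + 1 := by omega
        simp [PowerSeries.coeff_X_pow, Ne.symm h, h]

theorem coeff_one_etaProd : PowerSeries.coeff 1 etaProd = -1 := by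
  have hprod : Tendsto (fun s : Finset ℕ =>
      (∏ n ∈ s, (1 - PowerSeries.X ^ (n + 1) : PowerSeries ℤ))) atTop (𝓝 etaProd) :=
    (PowerSeries.WithPiTopology.multipliable_one_sub_X_pow ℤ).hasProd
  have h1 := ((PowerSeries.WithPiTopology.continuous_coeff ℤ 1).tendsto _).comp hprod
  refine tendsto_nhds_unique h1 ?_
  refine tendsto_const_nhds.congr' ?_
  filter_upwards [Filter.eventually_ge_atTop ({0} : Finset ℕ)] with s hs
  show (-1 : ℤ) = PowerSeries.coeff 1 _
  rw [(coeff_one_partial s).2, if_pos (hs (Finset.mem_singleton_self 0))]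

variable (p : ℕ) [NeZero p]

/-- `∏ (1 - q^n) / ∏ (1 - q^(p n))`, integrally. -/
def etaRatio : PowerSeries ℤ :=
  etaProd * PowerSeries.expand p (NeZero.ne p) (etaProd.invOfUnit 1)

theorem constantCoeff_etaRatio : PowerSeries.constantCoeff (etaRatio p) = 1 := by
  rw [etaRatio, map_mul, constantCoeff_etaProd, one_mul, ← PowerSeries.coeff_zero_eq_constantCoeff,
    ← mul_zero p, PowerSeries.coeff_expand_mul, PowerSeries.coeff_zero_eq_constantCoeff,
    PowerSeries.constantCoeff_invOfUnit]
  simp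

theorem coeff_one_etaRatio (hp : 1 < p) : PowerSeries.coeff 1 (etaRatio p) = -1 := by
  rw [etaRatio, PowerSeries.coeff_one_mul, coeff_one_etaProd, constantCoeff_etaProd,
    PowerSeries.coeff_expand_of_not_dvd _ _ _ (fun h => hp.ne' (Nat.dvd_one.mp h)),
    ← PowerSeries.coeff_zero_eq_constantCoeff, ← mul_zero p, PowerSeries.coeff_expand_mul,
    PowerSeries.coeff_zero_eq_constantCoeff, PowerSeries.constantCoeff_invOfUnit]
  simp

theorem coeff_one_pow_of_constantCoeff_one {R : Type*} [CommRing R] (V : PowerSeries R)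
    (h : PowerSeries.constantCoeff V = 1) (u : ℕ) :
    PowerSeries.coeff 1 (V ^ u) = u * PowerSeries.coeff 1 V := by
  induction u with
  | zero => simp
  | succ u ih =>
    rw [pow_succ, PowerSeries.coeff_one_mul, ih, map_pow, h, one_pow]
    push_cast
    ring

theorem etaRatio_pow_mul :
    etaRatio p ^ 24 * PowerSeries.expand p (NeZero.ne p) dedekindEtaUnit = dedekindEtaUnit := by
  rw [etaRatio, dedekindEtaUnit, mul_pow, map_pow, mul_assoc, ← mul_pow, ← map_mul,
    PowerSeries.invOfUnit_mul _ _ (by simp [constantCoeff_etaProd]), map_one, one_pow, mul_one]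

/-- The integral expansion of the modular unit. -/
def unitZ : LaurentSeries ℤ :=
  HahnSeries.single (1 - (p : ℤ)) 1 * HahnSeries.ofPowerSeries ℤ ℤ (etaRatio p ^ 24)

theorem coeffMap_unitZ : coeffMap (Int.castRingHom ℚ) (unitZ p) = modularUnitSeries p := by
  refine mul_right_cancel₀ (deltaSeriesN_ne_zero p) ?_
  rw [modularUnitSeries_mul_deltaSeriesN, deltaSeriesN, deltaSeries, map_mul, qExpand_single,
    ← EichlerShimura.ofPowerSeries_expand, dedekindEtaUnitQ, ← PowerSeries.map_expand,
    ← coeffMap_ofPowerSeries, ← coeffMap_ofPowerSeries, unitZ, map_mul, coeffMap_single, map_one]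
  rw [mul_mul_mul_comm, HahnSeries.single_mul_single, one_mul, mul_one, ← map_mul, ← map_mul,
    etaRatio_pow_mul]
  simp

/-- Coefficients of a `P`-th power vanish off the multiples of `P`. -/
theorem coeff_pow_char_eq_zero {k : Type*} [Field k] (P : ℕ) [Fact P.Prime] [CharP k P]
    (x : LaurentSeries k) {n : ℤ} (hn : ¬ (P : ℤ) ∣ n) : (x ^ P).coeff n = 0 := by
  have : NeZero P := ⟨(Fact.out : P.Prime).ne_zero⟩
  rw [EichlerShimura.pow_char_eq_qExpand P x, qExpand_coeff_of_not_dvd P _ hn]

/-- In characteristic `P`, the modular unit is no `P ^ s`-th power up to constants when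
`P ^ s ∤ 24`. -/
theorem unit_not_pow {k : Type*} [Field k] [IsAlgClosed k] (P : ℕ) [Fact P.Prime] [CharP k P]
    (hp : 1 < p) {s : ℕ} (hs : P ^ s ∣ p - 1) (h24 : ¬ P ^ s ∣ 24) (c : k) (f : LaurentSeries k) :
    coeffMap (Int.castRingHom k) (unitZ p) ≠ HahnSeries.C c * f ^ (P ^ s) := by
  intro heq
  obtain ⟨a, u, hu, h24u⟩ := Nat.exists_eq_pow_mul_and_not_dvd (n := 24) (by norm_num) P
    (Fact.out : P.Prime).ne_one
  have has : a < s := by
    by_contra hle
    exact h24 ((pow_dvd_pow P (not_lt.mp hle)).trans (h24u ▸ dvd_mul_right _ _))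
  obtain ⟨b, hb⟩ : ∃ b, s = a + (b + 1) := ⟨s - a - 1, by omega⟩
  obtain ⟨m, hm⟩ := hs
  set V : PowerSeries k := (etaRatio p).map (Int.castRingHom k) with hV
  have hlhs : coeffMap (Int.castRingHom k) (unitZ p) =
      (HahnSeries.single (-((P ^ (b + 1) * m : ℕ) : ℤ)) 1 *
        HahnSeries.ofPowerSeries ℤ k (V ^ u)) ^ (P ^ a) := by
    rw [unitZ, map_mul, coeffMap_single, map_one, coeffMap_ofPowerSeries, map_pow, mul_pow,
      HahnSeries.single_pow, one_pow, ← map_pow, ← map_pow, ← pow_mul]
    congr 2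
    · rw [nsmul_eq_mul]
      have : (p : ℤ) - 1 = ((P ^ s * m : ℕ) : ℤ) := by rw [← hm]; omega
      rw [hb] at this
      push_cast [pow_add] at this ⊢
      congr 1
      linear_combination -this
    · rw [mul_comm u, ← h24u, hV, map_pow]
  obtain ⟨d, hd⟩ := IsAlgClosed.exists_pow_nat_eq c (pow_pos (Fact.out : P.Prime).pos a)
  rw [hlhs, ← hd, map_pow HahnSeries.C, hb, pow_add P a (b + 1), mul_comm (P ^ a), pow_mul,
    ← mul_pow (HahnSeries.C d)] at heq
  have : CharP (LaurentSeries k) P :=
    charP_of_injective_algebraMap (algebraMap k (LaurentSeries k)).injective P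
  have : ExpChar (LaurentSeries k) P := ExpChar.prime Fact.out
  have h1 := iterateFrobenius_inj (LaurentSeries k) P a heq
  rw [pow_succ P b, pow_mul f] at h1
  have h2 := congrArg (fun x : LaurentSeries k =>
    x.coeff (1 + -((P ^ (b + 1) * m : ℕ) : ℤ))) h1
  rw [← pow_succ P b] at h2
  rw [HahnSeries.C_apply, HahnSeries.coeff_single_zero_mul,
    coeff_pow_char_eq_zero P _ ?_, mul_zero, HahnSeries.coeff_single_mul, one_mul,
    show (1 + -((P ^ (b + 1) * m : ℕ) : ℤ)) - -((P ^ (b + 1) * m : ℕ) : ℤ) = ((1 : ℕ) : ℤ) by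
      push_cast; ring,
    HahnSeries.ofPowerSeries_apply_coeff, coeff_one_pow_of_constantCoeff_one V ?_ u, hV,
    PowerSeries.coeff_map, coeff_one_etaRatio p hp, map_neg, map_one, mul_neg, mul_one,
    neg_eq_zero, CharP.cast_eq_zero_iff k P] at h2
  · exact hu h2
  · rw [hV, ← PowerSeries.coeff_zero_eq_constantCoeff, PowerSeries.coeff_map,
      PowerSeries.coeff_zero_eq_constantCoeff, constantCoeff_etaRatio, map_one]
  · intro hdvd
    have h3 : (P : ℤ) ∣ ((P ^ (b + 1) * m : ℕ) : ℤ) := by
      exact_mod_cast dvd_mul_of_dvd_left (dvd_pow_self P (Nat.succ_ne_zero b)) m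
    have h4 : (P : ℤ) ∣ ((1 : ℕ) : ℤ) := by
      have := dvd_add hdvd h3
      simpa using this
    exact (Fact.out : P.Prime).not_dvd_one (by exact_mod_cast h4)

end Fermat.Agent.Mazur.CuspClass
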