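import Fermat.Agent.Mazur.CuspClass.Places
import Fermat.Agent.Mazur.Disc.Unit
import Fermat.Agent.X0.Genus

/-!
# The modular unit `Δ(τ)/Δ(pτ)` and its divisor `(p - 1)(0 - ∞)`
-/

noncomputable section

open AlgebraicCurve ModularCurve UpperHalfPlane CongruenceSubgroup
open scoped IntermediateField MatrixGroups ModularForm

namespace Fermat.Agent.Mazur.CuspClass

local notation "Qbar" => AlgebraicClosure ℚ

variable (p : ℕ) [Fact p.Prime]

/-- The modular unit in `ℚ̄(X₀(p))`. -/
def unitBar : modularFunctionFieldBar p :=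
  ⟨coeffEmb Qbar (modularUnitSeries p),
    coeffEmb_mem_laurentBaseChange Qbar (Disc.modularUnitSeries_mem_full p dvd_rfl)⟩

theorem order_unitBar :
    ((unitBar p : modularFunctionFieldBar p) : LaurentSeries Qbar).order = 1 - (p : ℤ) := by
  show (coeffEmb Qbar (modularUnitSeries p)).order = _
  rw [coeffEmb, MF.order_coeffMap (algebraMap ℚ Qbar).injective, order_modularUnitSeries]

theorem unitBar_ne_zero : unitBar p ≠ 0 := fun h => by
  have h1 := order_unitBar p
  rw [h, ZeroMemClass.coe_zero, HahnSeries.order_zero] at h1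
  have := (Fact.out : p.Prime).two_le
  omega

theorem ord_unitBar_of_finite {v : XPlace p} (hv : 0 ≤ v.ord (jBar p)) : v.ord (unitBar p) = 0 := by
  rw [← Mono.ord_placeC p v]
  have hj : Mono.toFC p (jBar p) = X0.jC p := by
    rw [← X0.toFC_jBar]
    refine congrArg (Mono.toFC p) (Subtype.ext ?_)
    exact Mono.coeffEmb_jq Qbar
  have hu : Mono.toFC p (unitBar p) = Disc.unitC p := Subtype.ext <| by
    rw [Mono.coe_toFC]
    show coeffMap _ (coeffMap _ (modularUnitSeries p)) = coeffMap _ (modularUnitSeries p)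
    rw [coeffMap_coeffMap, coeffMap_congr (Subsingleton.elim _ (algebraMap ℚ ℂ))]
  rw [hu]
  exact Disc.ord_unitC p _ (by rw [← hj, Mono.ord_placeC]; exact hv)

/-- `div (Δ/Δ_p) = (p - 1) (0 - ∞)`. -/
theorem divOf_unitBar :
    FF.divOf (K := Qbar) (unitBar p) =
      ((p : ℤ) - 1) • (Finsupp.single (zeroPlace p) 1 - Finsupp.single (inftyPlace p) 1) := by
  classical
  set D := FF.divOf (K := Qbar) (unitBar p) with hD
  have hO : D (inftyPlace p) = 1 - (p : ℤ) := by
    rw [hD, FF.divOf_apply, isInfty_inftyPlace p _ (unitBar_ne_zero p), order_unitBar]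
  have hoff : ∀ v, v ≠ inftyPlace p → v ≠ zeroPlace p → D v = 0 := fun v h1 h2 => by
    rw [hD, FF.divOf_apply]
    refine ord_unitBar_of_finite p (not_lt.mp fun hneg => ?_)
    rcases eq_cusp_of_ord_jBar p hneg with h | h
    · exact h1 h
    · exact h2 h
  have hsplit : D = Finsupp.single (zeroPlace p) (D (zeroPlace p)) +
      Finsupp.single (inftyPlace p) (1 - (p : ℤ)) := by
    ext v
    rw [Finsupp.add_apply, Finsupp.single_apply, Finsupp.single_apply]
    by_cases h1 : inftyPlace p = v
    · subst h1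
      rw [if_neg (Ne.symm (infty_ne_zero p)), if_pos rfl, zero_add, hO]
    by_cases h2 : zeroPlace p = v
    · subst h2
      rw [if_pos rfl, if_neg h1, add_zero]
    rw [if_neg h2, if_neg h1, add_zero]
    exact hoff v (Ne.symm h1) (Ne.symm h2)
  have hZ : D (zeroPlace p) = (p : ℤ) - 1 := by
    have h := FF.degree_divOf (K := Qbar) (unitBar p)
    rw [← hD, hsplit, map_add, Divisor.degree_single, Divisor.degree_single, FF.place_deg_eq_one,
      FF.place_deg_eq_one] at h
    push_cast at h
    omega
  rw [hsplit, hZ, smul_sub, Finsupp.smul_single, Finsupp.smul_single, smul_eq_mul, mul_one,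
    sub_eq_add_neg (Finsupp.single _ _), ← Finsupp.single_neg, neg_sub]

end Fermat.Agent.Mazur.CuspClass
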