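import Fermat.Agent.EichlerShimura.Main
import Fermat.Agent.Mazur.CuspClass.Hecke
import Fermat.Agent.Mazur.CuspClass.Power
import Fermat.Agent.Mazur.CuspClass.Quotient
import Fermat.Agent.Mazur.EisensteinComponent.Setup
import Fermat.Agent.Red.GenusLift

/-!
# The cusp class is visible modulo `P`, and the facts on reduction
-/

noncomputable section

open AlgebraicCurve ModularCurve

namespace Fermat.Agent.Mazur

local notation "Qbar" => AlgebraicClosure ℚ
local notation "Γℚ" => AlgebraicClosure ℚ ≃ₐ[ℚ] AlgebraicClosure ℚ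

variable (N : ℕ) [NeZero N]

/-- Equivariance of reduction and the congruence relation, from the reduction inputs. -/
theorem reductionFacts_of_inputs
    (hR : ∀ ℓ : ℕ, ℓ.Prime → ¬ ℓ ∣ N → ∀ A : ValuationSubring Qbar, A.LiesOverPrime ℓ →
      ReductionInputsModL A N) : ReductionFacts N where
  inertia := fun ℓ hℓ hℓN A hA σ hσ x => by
    show reductionAlong A (IsLocalRing.residue A) N _ = _
    rw [EichlerShimura.reductionAlong_smul (hR ℓ hℓ hℓN A hA)
      (EichlerShimura.boundedClasses_of_isFunctionField _ _)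
        (EichlerShimura.inducesOn_refl_of_inertia hσ),
      EichlerShimura.coeffSemilinear_refl, one_smul]
  decomposition := fun ℓ hℓ hℓN A hA σ hσ x hx => by
    show reductionAlong A (IsLocalRing.residue A) N _ = _
    rw [EichlerShimura.reductionAlong_smul (hR ℓ hℓ hℓN A hA)
      (EichlerShimura.boundedClasses_of_isFunctionField _ _)
        (EichlerShimura.inducesOn_residueAut hσ)]
    rw [show reductionAlong A (IsLocalRing.residue A) N x = 0 from hx]
    exact smul_zero (A := JZeroC (IsLocalRing.ResidueField A) N)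
      (EichlerShimura.coeffSemilinear N (EichlerShimura.residueAut A ⟨σ, hσ⟩))
  congruence := fun ℓ hℓN A hA σ hσ x => by
    have : Fact (ℓ : ℕ).Prime := ⟨ℓ.2⟩
    have : NeZero (ℓ : ℕ) := ⟨ℓ.2.ne_zero⟩
    have := Gal.residueField_charP ℓ.2 hA
    obtain ⟨ζ, hζ, hprim⟩ := EichlerShimura.exists_primitiveRoot_unit (A := A) ℓ.2
    have hB := EichlerShimura.boundedClasses_of_isFunctionField Qbar (modularFunctionFieldBar N)
    have h := hR ℓ ℓ.2 hℓN A hA
    have hfrob : ∀ y : JZero N, reductionModL A N (σ • y) =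
        EichlerShimura.coeffSemilinear N (EichlerShimura.residueAut A
          ⟨σ, hσ.mem_decompositionSubgroup⟩) •
            reductionModL A N y :=
      fun y => EichlerShimura.reductionAlong_smul h hB (EichlerShimura.inducesOn_residueAut _) y
    refine (EichlerShimura.reductionAlong_heckeOperatorAlong (π := IsLocalRing.residue A)
      (φ := EichlerShimura.residueAut A ⟨σ, hσ.mem_decompositionSubgroup⟩)
        (EichlerShimura.residueAut_frobenius hσ) hζ
      (EichlerShimura.heckeEmbeddings_of_prime hℓN _ hprim) h hB (fun P => FF.place_deg_eq_one P)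
      (Hecke.heckeInputsAlong_bar N ℓ) (σ • x)).trans ?_
    rw [hfrob (σ • x)]
    congr 1
    rw [show reductionAlong A (IsLocalRing.residue A) N (σ • x) =
      EichlerShimura.coeffSemilinear N (EichlerShimura.residueAut A
        ⟨σ, hσ.mem_decompositionSubgroup⟩) •
          reductionModL A N x from
        hfrob x, inv_smul_smul]

namespace CuspClass

variable {p : ℕ} [Fact p.Prime] {P : ℕ} [Fact P.Prime]

theorem red_unit_mem (hPp : ¬ P ∣ p) {A : ValuationSubring Qbar} (hA : A.LiesOverPrime P) :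
    coeffMap (Int.castRingHom (IsLocalRing.ResidueField A)) (unitZ p) ∈
      modularFunctionFieldFullC (IsLocalRing.ResidueField A) p := by
  let : Algebra ↥(GaloisRep.ratLocalizedAt P) (IsLocalRing.ResidueField A) :=
    ((IsLocalRing.residue A).comp (Red.toA A hA)).toAlgebra
  have := Red.isAlgClosed_residueField A
  have := Red.charP_residueField A hA
  have h := Igusa.red_mem p P (IsLocalRing.ResidueField A) hPp
    (y := coeffMap (Int.castRingHom _) (unitZ p)) ?_
  · rwa [coeffMap_coeffMap, RingHom.ext_int ((algebraMap _ _).comp _)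
      (Int.castRingHom (IsLocalRing.ResidueField A))] at h
  · rw [Igusa.toQ, coeffMap_coeffMap,
      RingHom.ext_int ((algebraMap _ ℚ).comp _) (Int.castRingHom ℚ), coeffMap_unitZ]
    exact Disc.modularUnitSeries_mem_full p dvd_rfl

theorem integral_unit_eq (A : ValuationSubring Qbar) :
    coeffMap A.subtype (coeffMap (Int.castRingHom A) (unitZ p)) =
      coeffEmb Qbar (modularUnitSeries p) := by
  rw [← coeffMap_unitZ, coeffEmb, coeffMap_coeffMap, coeffMap_coeffMap,
    RingHom.ext_int ((algebraMap ℚ Qbar).comp _) (A.subtype.comp (Int.castRingHom A))]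

/-- For `m = (p - 1) / P ^ s` and `P ^ s ∤ 24`, `m` times the cusp class survives reduction
at `P`. -/
theorem reduction_ne_zero (hPp : ¬ P ∣ p) {s m : ℕ} (hm : p - 1 = P ^ s * m)
    (h24 : ¬ P ^ s ∣ 24) {A : ValuationSubring Qbar} (hA : A.LiesOverPrime P)
    (hR : ReductionInputsModL A p) : reductionModL A p (m • cuspClass p) ≠ 0 := by
  intro h0
  have := Red.charP_residueField A hA
  have := Red.isAlgClosed_residueField A
  have := Red.isFunctionField_residue (Red.sameDegree (N := p) hPp hA)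
  set k := IsLocalRing.ResidueField A
  set r := placeReductionModL hR
  have hmk : m • cuspClass p = Pic0.mk (m • cuspDiv p) := (map_nsmul
    (QuotientAddGroup.mk' _) m (cuspDiv p)).symm
  rw [hmk, reductionModL_mk hR] at h0
  have hprin := AddSubgroup.mem_addSubgroupOf.mp ((QuotientAddGroup.eq_zero_iff _).mp h0)
  rw [coe_reductionDegZeroAlong] at hprin
  obtain ⟨f, hf, hfD⟩ := FF.isPrincipal_iff.mp hprin
  set y : LaurentSeries A := coeffMap (Int.castRingHom A) (unitZ p) with hy
  have hyk0 : coeffMap (IsLocalRing.residue A) y = coeffMap (Int.castRingHom k) (unitZ p) := by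
    rw [hy, coeffMap_coeffMap, RingHom.ext_int ((IsLocalRing.residue A).comp _) (Int.castRingHom k)]
  have hyk : coeffMap (IsLocalRing.residue A) y ∈ modularFunctionFieldFullC k p :=
    hyk0 ▸ red_unit_mem hPp hA
  have hymem : coeffMap A.subtype y ∈ modularFunctionFieldBar p := by
    rw [hy, integral_unit_eq]; exact (unitBar p).2
  have hyne : coeffMap (IsLocalRing.residue A) y ≠ 0 := by
    rw [hyk0]
    intro h
    have h1 := congrArg (fun x : LaurentSeries k => x.coeff (1 - (p : ℤ))) h
    simp only [coeffMap_coeff, unitZ, HahnSeries.coeff_single_mul, one_mul, sub_self,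
      HahnSeries.coeff_zero] at h1
    rw [show (0 : ℤ) = ((0 : ℕ) : ℤ) from rfl, HahnSeries.ofPowerSeries_apply_coeff,
      PowerSeries.coeff_zero_eq_constantCoeff, map_pow, constantCoeff_etaRatio] at h1
    simp at h1
  set g : modularFunctionFieldFullC k p := ⟨coeffMap (IsLocalRing.residue A) y, hyk⟩ with hg
  have hgdiv : Finsupp.mapDomain r (FF.divOf (K := Qbar) (unitBar p)) = FF.divOf (K := k) g := by
    refine Finsupp.ext fun Q => ?_
    rw [(isPlaceReductionModL_placeReductionModL hR).2 y hymem hyk hyne _ (fun v => ?_) Q,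
      FF.divOf_apply]
    rw [FF.divOf_apply]
    exact congrArg v.ord (Subtype.ext (integral_unit_eq A).symm)
  have hp1 : ((p : ℤ) - 1) = ((P ^ s * m : ℕ) : ℤ) := by
    rw [← hm]
    have := (Fact.out : p.Prime).pos
    omega
  have hpow : FF.divOf (K := k) (f ^ (P ^ s)) = FF.divOf (K := k) g := by
    rw [← hgdiv, divOf_unitBar, hp1, natCast_zsmul, mul_nsmul',
        ← Finsupp.mapDomain.addMonoidHom_apply,
      map_nsmul, Finsupp.mapDomain.addMonoidHom_apply]
    refine Finsupp.ext fun Q => ?_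
    rw [FF.divOf_apply, FF.ord_pow, Finsupp.smul_apply, nsmul_eq_mul,
      show Finsupp.mapDomain r (m • (Finsupp.single (zeroPlace p) (1 : ℤ) -
        Finsupp.single (inftyPlace p) 1)) = FF.divOf (K := k) f from hfD, FF.divOf_apply]
  have hg0 : g ≠ 0 := fun h => hyne (congrArg Subtype.val h)
  have hf0 : f ^ (P ^ s) ≠ 0 := pow_ne_zero _ hf
  have hq : FF.divOf (K := k) (g * (f ^ (P ^ s))⁻¹) = 0 := by
    rw [FF.divOf_mul hg0 (inv_ne_zero hf0), FF.divOf_inv, hpow, add_neg_cancel]
  obtain ⟨c, -, hc⟩ := (FF.divOf_eq_zero_iff (mul_ne_zero hg0 (inv_ne_zero hf0))).mp hq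
  refine unit_not_pow (k := k) p P (Fact.out : p.Prime).one_lt (s := s) ⟨m, hm⟩ h24 c
    (f : LaurentSeries k) ?_
  have h1 : g = algebraMap k _ c * f ^ (P ^ s) := by
    rw [← hc, inv_mul_cancel_right₀ hf0]
  have h2 := congrArg Subtype.val h1
  replace h2 : coeffMap (Int.castRingHom k) (unitZ p) = _ := hyk0.symm.trans h2
  rw [h2, EichlerShimura.C_eq_algebraMap]
  rfl

end CuspClass

/-- A prime `P` and a visible Eisenstein cusp class. -/
theorem exists_cuspClassAt (hN : N.Prime) (h11 : 11 ≤ N) (h13 : N ≠ 13)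
    (hR : ∀ ℓ : ℕ, ℓ.Prime → ¬ ℓ ∣ N → ∀ A : ValuationSubring Qbar, A.LiesOverPrime ℓ →
      ReductionInputsModL A N) :
    ∃ P : ℕ, P.Prime ∧ ¬ P ∣ N ∧ P ∣ N - 1 ∧ CuspClassAt N P := by
  have : Fact N.Prime := ⟨hN⟩
  have h24 : ¬ (N - 1) ∣ 24 := fun h => by
    have h1 : N - 1 ≤ 24 := Nat.le_of_dvd (by norm_num) h
    have h2 : N ≤ 25 := by omega
    interval_cases N <;> revert h hN h13 <;> norm_num
  obtain ⟨P, hP, s, hs, hs24⟩ : ∃ P : ℕ, P.Prime ∧ ∃ s, P ^ s ∣ N - 1 ∧ ¬ P ^ s ∣ 24 := by
    by_contra hall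
    push Not at hall
    exact h24 ((Nat.dvd_iff_prime_pow_dvd_dvd _ _).mpr fun q k hq hk => hall q hq k hk)
  have : Fact P.Prime := ⟨hP⟩
  have hs0 : s ≠ 0 := fun h => hs24 (by rw [h, pow_zero]; exact one_dvd _)
  have hP1 : P ∣ N - 1 := (dvd_pow_self P hs0).trans hs
  have hPN : ¬ P ∣ N := fun h => by
    rcases (Nat.dvd_prime hN).mp h with h1 | h1
    · exact hP.ne_one h1
    · have h2 := Nat.le_of_dvd (by omega) hP1
      omega
  obtain ⟨m, hm⟩ := hs
  refine ⟨P, hP, hPN, hP1, fun A hA => ⟨m • CuspClass.cuspClass N, ⟨s, ?_⟩,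
    CuspClass.reduction_ne_zero hPN hm hs24 hA (hR P hP hPN A hA), fun ℓ hℓ => ?_⟩⟩
  · rw [smul_smul, ← hm]
    refine (map_nsmul (QuotientAddGroup.mk' _) (N - 1) (CuspClass.cuspDiv N)).symm.trans ?_
    refine (QuotientAddGroup.eq_zero_iff _).mpr (AddSubgroup.mem_addSubgroupOf.mpr ?_)
    rw [AddSubgroupClass.coe_nsmul]
    have h1 := FF.divOf_mem_principal (K := Qbar) (CuspClass.unitBar_ne_zero N)
    rw [CuspClass.divOf_unitBar] at h1
    rw [← natCast_zsmul, Nat.cast_sub (by omega : 1 ≤ N)]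
    exact h1
  · rw [map_nsmul, CuspClass.heckeOperatorBar_cuspClass N ℓ hℓ, smul_comm]

end Fermat.Agent.Mazur
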