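import Fermat.Agent.EichlerShimura.EmbeddingsMain
import Fermat.Agent.Hecke.Along
import Fermat.Agent.Mazur.Cusp
import Fermat.Agent.Mazur.Disc.Fibre
import Fermat.Agent.X0.IntVal

/-!
# The two cusps of `X₀(p)` and their behaviour under the degeneracy maps
-/

noncomputable section

open AlgebraicCurve ModularCurve IntermediateField CongruenceSubgroup

namespace Fermat.Agent.Mazur.CuspClass

local notation "Qbar" => AlgebraicClosure ℚ

section Series

variable {K F : Type*} [Field K] [Field F] [Algebra K F]

/-- The order of the image in Laurent series, as a valuation. -/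
def seriesVal (τ : F →+* LaurentSeries K) (hC : ∀ c, τ (algebraMap K F c) = HahnSeries.C c) :
    X0.IntVal K F where
  ord f := (τ f).order
  map_mul hf hg := by
    rw [map_mul, HahnSeries.order_mul ((map_ne_zero τ).mpr hf) ((map_ne_zero τ).mpr hg)]
  map_add {f g} _ _ hfg := by
    rw [map_add]
    exact HahnSeries.min_order_le_order_add (by rw [← map_add]; exact (map_ne_zero τ).mpr hfg)
  map_const {c} hc := by rw [hC, HahnSeries.C_apply, HahnSeries.order_single hc]

/-- A homomorphism to Laurent series with an element of order `-1` gives a place. -/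
theorem exists_place_of_series (τ : F →+* LaurentSeries K)
    (hC : ∀ c, τ (algebraMap K F c) = HahnSeries.C c) {f : F} (hf : (τ f).order = -1) :
    ∃ v : Place K F, ∀ x : F, x ≠ 0 → v.ord x = (τ x).order := by
  have hf0 : f ≠ 0 := by rintro rfl; simp at hf
  have h : ∃ g : F, g ≠ 0 ∧ (seriesVal τ hC).ord g ≠ 0 :=
    ⟨f, hf0, by show (τ f).order ≠ 0; omega⟩
  obtain ⟨k, -, hk⟩ := (seriesVal τ hC).exists_ord_eq_mul h
  have h1 : (-1 : ℤ) = k * ((seriesVal τ hC).place h).ord f := hf.symm.trans (hk f hf0)
  have hk1 : (k : ℤ) = 1 := by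
    rcases Int.eq_one_or_neg_one_of_mul_eq_neg_one h1.symm with h2 | h2 <;> omega
  exact ⟨(seriesVal τ hC).place h, fun x hx => by
    have h2 : (τ x).order = k * ((seriesVal τ hC).place h).ord x := hk x hx
    rw [h2, hk1, one_mul]⟩

theorem restrictAlong_eq_of_ord {F' : Type*} [Field F'] [Algebra K F'] (φ : F →ₐ[K] F')
    (hφ : φ.toRingHom.IsIntegral) (w : Place K F') (v : Place K F) {k : ℕ} (hk : 0 < k)
    (h : ∀ x : F, x ≠ 0 → w.ord (φ x) = k * v.ord x) :
    w.restrictAlong φ hφ = v ∧ w.ramificationIndexAlong φ = k := by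
  have hv : w.restrictAlong φ hφ = v := by
    have he : 0 < w.ramificationIndexAlong φ := by
      obtain ⟨t, ht0, ht⟩ := Hecke.exists_ord_eq_one v
      refine Nat.pos_of_ne_zero fun h0 => ?_
      have := h t ht0
      rw [Place.ord_restrictAlong φ hφ, h0, ht] at this
      simp at this
      omega
    refine FF.place_ext fun x => ?_
    rcases eq_or_ne x 0 with rfl | hx
    · simp
    have := h x hx
    rw [Place.ord_restrictAlong φ hφ] at this
    constructor
    · intro h1
      refine nonneg_of_mul_nonneg_right (a := (k : ℤ)) ?_ (by exact_mod_cast hk)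
      rw [← this]; positivity
    · intro h1
      refine nonneg_of_mul_nonneg_right (a := (w.ramificationIndexAlong φ : ℤ)) ?_
        (by exact_mod_cast he)
      rw [this]; positivity
  refine ⟨hv, ?_⟩
  obtain ⟨t, ht0, ht⟩ := Hecke.exists_ord_eq_one v
  have h1 := h t ht0
  rw [Place.ord_restrictAlong φ hφ, hv, ht, mul_one, mul_one] at h1
  exact_mod_cast h1

end Series

section Fibre

variable {K F F' : Type*} [Field K] [IsAlgClosed K] [Field F] [Field F'] [Algebra K F]
  [Algebra K F'] [FF.IsFunctionField K F] [FF.IsFunctionField K F'] [HasPrincipalDivisors K F']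

/-- Two places over `v` exhausting the degree are the whole fibre. -/
theorem pullback_eq_pair (φ : F →ₐ[K] F') (hφ : φ.toRingHom.IsIntegral) {v : Place K F}
    {w₁ w₂ : Place K F'} (hne : w₁ ≠ w₂) (h1 : w₁.restrictAlong φ hφ = v)
    (h2 : w₂.restrictAlong φ hφ = v)
    (hsum : w₁.ramificationIndexAlong φ + w₂.ramificationIndexAlong φ = finrankAlong K φ) :
    Divisor.pullbackAlong φ hφ (Finsupp.single v 1) =
      Finsupp.single w₁ (w₁.ramificationIndexAlong φ : ℤ) +
        Finsupp.single w₂ (w₂.ramificationIndexAlong φ : ℤ) := by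
  classical
  set E := Divisor.pullbackAlong φ hφ (Finsupp.single v 1) - (Finsupp.single w₁
    (w₁.ramificationIndexAlong φ : ℤ) + Finsupp.single w₂ (w₂.ramificationIndexAlong φ : ℤ)) with hE
  have hnn : ∀ w, 0 ≤ E w := by
    intro w
    rw [hE, Finsupp.sub_apply, Finsupp.add_apply, Divisor.pullbackAlong_apply,
      Finsupp.single_apply, Finsupp.single_apply, Finsupp.single_apply]
    by_cases e1 : w₁ = w
    · subst e1
      rw [if_pos h1.symm, if_pos rfl, if_neg (fun e => hne e.symm)]
      simp
    by_cases e2 : w₂ = w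
    · subst e2
      rw [if_pos h2.symm, if_neg e1, if_pos rfl]
      simp
    rw [if_neg e1, if_neg e2]
    split_ifs <;> simp
  have hdeg : Divisor.degree E = 0 := by
    rw [hE, map_sub, map_add, Divisor.degree_pullbackAlong φ hφ
      (Hecke.fundamentalIdentityAlong φ hφ), Divisor.degree_single, Divisor.degree_single,
      Divisor.degree_single, FF.place_deg_eq_one, FF.place_deg_eq_one, FF.place_deg_eq_one, ← hsum]
    push_cast
    ring
  have h0 : E = 0 := by
    rw [FF.degree_eq_sum] at hdeg
    refine Finsupp.ext fun w => ?_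
    by_cases hw : w ∈ E.support
    · exact (Finset.sum_eq_zero_iff_of_nonneg (fun i _ => hnn i)).mp hdeg w hw
    · simpa using hw
  exact sub_eq_zero.mp h0

omit [IsAlgClosed K] [FF.IsFunctionField K F] [FF.IsFunctionField K F'] [HasPrincipalDivisors K F']
    in
theorem ramification_pos (φ : F →ₐ[K] F') (hφ : φ.toRingHom.IsIntegral) (w : Place K F') :
    0 < w.ramificationIndexAlong φ := by
  let := algebraAlong φ
  have := isScalarTower_along φ
  have := isIntegral_along φ hφ
  exact w.ramificationIndex_pos (F := F)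

/-- The fibre of `v` has only the two places. -/
theorem eq_or_eq_of_restrictAlong_eq (φ : F →ₐ[K] F') (hφ : φ.toRingHom.IsIntegral) {v : Place K F}
    {w₁ w₂ : Place K F'} (hne : w₁ ≠ w₂) (h1 : w₁.restrictAlong φ hφ = v)
    (h2 : w₂.restrictAlong φ hφ = v)
    (hsum : w₁.ramificationIndexAlong φ + w₂.ramificationIndexAlong φ = finrankAlong K φ)
    {w : Place K F'} (hw : w.restrictAlong φ hφ = v) : w = w₁ ∨ w = w₂ := by
  classical
  by_contra hcon
  push Not at hcon
  have h := congrArg (fun D => D w) (pullback_eq_pair φ hφ hne h1 h2 hsum)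
  simp only [Divisor.pullbackAlong_apply, hw, Finsupp.single_eq_same, mul_one,
    Finsupp.add_apply, Finsupp.single_apply] at h
  rw [if_neg (Ne.symm hcon.1), if_neg (Ne.symm hcon.2), add_zero] at h
  exact (Nat.pos_iff_ne_zero.mp (ramification_pos φ hφ w)) (by exact_mod_cast h)

omit [FF.IsFunctionField K F] [HasPrincipalDivisors K F'] in
/-- Pushforward of a divisor living over a single place. -/
theorem pushforward_eq_single (ψ : F →ₐ[K] F') (hψ : ψ.toRingHom.IsIntegral) {z : Place K F}
    (D : Divisor K F') (hD : ∀ w ∈ D.support, w.restrictAlong ψ hψ = z) :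
    Divisor.pushforwardAlong ψ hψ D = Finsupp.single z (Divisor.degree D) := by
  classical
  rw [FF.degree_eq_sum, Finsupp.sum]
  conv_lhs => rw [← D.sum_single]
  rw [Finsupp.sum, map_sum, Finsupp.single_finsetSum]
  exact Finset.sum_congr rfl fun w hw => by
    rw [Hecke.pushforwardAlong_single_one ψ hψ w (FF.place_deg_eq_one w), hD w hw]

end Fibre

section Cusps

variable (p : ℕ) [Fact p.Prime]

instance neZero_of_prime : NeZero p := ⟨(Fact.out : p.Prime).ne_zero⟩

theorem order_coe_jNBar :
    ((jNBar p : modularFunctionFieldBar p) : LaurentSeries Qbar).order = -(p : ℤ) := by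
  show (coeffEmb Qbar (qExpand ℚ p jq)).order = _
  rw [coeffEmb, coeffMap_qExpand]
  show (qExpand Qbar p (coeffEmb Qbar jq)).order = _
  rw [Disc.order_qExpand, Disc.order_coeffEmb_jq]
  ring

/-- The Fricke involution as an endomorphism of the function field. -/
theorem exists_fricke : ∃ w : modularFunctionFieldBar p →ₐ[Qbar] modularFunctionFieldBar p,
    w (jBar p) = jNBar p ∧ w (jNBar p) = jBar p := by
  obtain ⟨τ, hC, h1, h2⟩ := Disc.exists_frickeHom p
  have hjN : qExpand Qbar p (coeffEmb Qbar jq) = (jNBar p : LaurentSeries Qbar) := by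
    show _ = coeffEmb Qbar (qExpand ℚ p jq)
    rw [coeffEmb, coeffMap_qExpand]
  have hmem : ∀ x, τ x ∈ modularFunctionFieldBar p := by
    refine fun x => Disc.mem_of_expansions Qbar
      (P := (modularFunctionFieldBar p).toSubfield.comap τ) (fun a => ?_) (fun d _ hd => ?_) x
    · show τ _ ∈ modularFunctionFieldBar p
      rw [hC, EichlerShimura.C_eq_algebraMap]
      exact (modularFunctionFieldBar p).algebraMap_mem a
    · show τ _ ∈ modularFunctionFieldBar p
      rcases (Nat.dvd_prime Fact.out).mp hd with rfl | rfl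
      · rw [show (⟨coeffEmb Qbar (qExpand ℚ 1 jq), _⟩ : modularFunctionFieldBar p) = jBar p from
          Subtype.ext (by show coeffEmb Qbar (qExpand ℚ 1 jq) = _; rw [qExpand_one_apply]; rfl),
          h1, hjN]
        exact (jNBar p).2
      · rw [show (⟨coeffEmb Qbar (qExpand ℚ d jq), _⟩ : modularFunctionFieldBar d) = jNBar d from
          Subtype.ext rfl, h2]
        exact (jBar d).2
  refine ⟨{ τ.codRestrict _ hmem with commutes' := fun a => Subtype.ext ?_ }, ?_, ?_⟩
  · show τ _ = _
    rw [hC, EichlerShimura.C_eq_algebraMap]; rfl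
  · refine Subtype.ext ?_
    show τ (jBar p) = _
    rw [h1, hjN]
  · refine Subtype.ext ?_
    show τ (jNBar p) = _
    rw [h2]; rfl

theorem finrank_jNBar :
    Module.finrank Qbar⟮jNBar p⟯ (modularFunctionFieldBar p) = p + 1 := by
  obtain ⟨w, hw1, hw2⟩ := exists_fricke p
  have h1 := Hecke.finrank_adjoin_apply w (jBar p)
  have h2 := Hecke.finrank_adjoin_apply w (jNBar p)
  rw [hw1, Disc.finrank_jBar] at h1
  rw [hw2, Disc.finrank_jBar] at h2
  rw [h1] at h2 ⊢
  have hd : finrankAlong Qbar w = 1 := by
    have h3 : (p + 1) * (finrankAlong Qbar w * finrankAlong Qbar w) = (p + 1) * 1 := by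
      rw [mul_one, ← mul_assoc]; exact h2.symm
    exact Nat.eq_one_of_mul_eq_one_right (Nat.eq_of_mul_eq_mul_left (Nat.succ_pos p) h3)
  rw [hd, mul_one]

/-- The cusp `0`. -/
def zeroPlace : XPlace p :=
  (exists_place_of_series (Disc.exists_frickeHom p).choose (Disc.exists_frickeHom p).choose_spec.1
    (f := jNBar p) (by
      rw [(Disc.exists_frickeHom p).choose_spec.2.2]
      exact Disc.order_coeffEmb_jq)).choose

theorem ord_zeroPlace {x : modularFunctionFieldBar p} (hx : x ≠ 0) :
    (zeroPlace p).ord x = ((Disc.exists_frickeHom p).choose x).order :=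
  (exists_place_of_series (Disc.exists_frickeHom p).choose (Disc.exists_frickeHom p).choose_spec.1
    (f := jNBar p) (by
      rw [(Disc.exists_frickeHom p).choose_spec.2.2]
      exact Disc.order_coeffEmb_jq)).choose_spec x hx

theorem jNBar_ne_zero : jNBar p ≠ 0 := fun h => by
  have := order_coe_jNBar p
  rw [h, ZeroMemClass.coe_zero, HahnSeries.order_zero] at this
  have := (Fact.out : p.Prime).pos
  omega

theorem ord_zeroPlace_jBar : (zeroPlace p).ord (jBar p) = -(p : ℤ) := by
  rw [ord_zeroPlace p (jBar_ne_zero p), (Disc.exists_frickeHom p).choose_spec.2.1,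
    Disc.order_qExpand,
    Disc.order_coeffEmb_jq]
  ring

theorem ord_zeroPlace_jNBar : (zeroPlace p).ord (jNBar p) = -1 := by
  rw [ord_zeroPlace p (jNBar_ne_zero p), (Disc.exists_frickeHom p).choose_spec.2.2,
    Disc.order_coeffEmb_jq]

theorem ord_infty_jBar : (inftyPlace p).ord (jBar p) = -1 := by
  rw [isInfty_inftyPlace p _ (jBar_ne_zero p), order_coe_jBar]

theorem ord_infty_jNBar : (inftyPlace p).ord (jNBar p) = -(p : ℤ) := by
  rw [isInfty_inftyPlace p _ (jNBar_ne_zero p), order_coe_jNBar]

theorem infty_ne_zero : inftyPlace p ≠ zeroPlace p := fun h => by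
  have h1 := ord_zeroPlace_jBar p
  rw [← h, ord_infty_jBar] at h1
  have := (Fact.out : p.Prime).two_le
  omega

theorem eq_cusp_of_finrank {f : modularFunctionFieldBar p} (ht : Transcendental Qbar f)
    (hfin : Module.finrank Qbar⟮f⟯ (modularFunctionFieldBar p) = p + 1)
    (hsum : -(inftyPlace p).ord f + -(zeroPlace p).ord f = (p : ℤ) + 1)
    (hO : (inftyPlace p).ord f < 0) (hZ : (zeroPlace p).ord f < 0)
    {v : XPlace p} (hv : v.ord f < 0) : v = inftyPlace p ∨ v = zeroPlace p := by
  classical
  by_contra hcon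
  push Not at hcon
  have h := FF.degree_poleDiv (K := Qbar) ht
  rw [hfin, FF.degree_eq_sum, Finsupp.sum] at h
  have hmem : ∀ w : XPlace p, w.ord f < 0 → w ∈ (FF.poleDiv f).support := fun w hw => by
    rw [Finsupp.mem_support_iff, FF.poleDiv_apply]; omega
  have hsub : ({inftyPlace p, zeroPlace p, v} : Finset (XPlace p)) ⊆ (FF.poleDiv f).support := by
    intro w hw
    simp only [Finset.mem_insert, Finset.mem_singleton] at hw
    rcases hw with rfl | rfl | rfl
    · exact hmem _ hO
    · exact hmem _ hZ
    · exact hmem _ hv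
  have hle := Finset.sum_le_sum_of_subset_of_nonneg (f := fun w => FF.poleDiv f w) hsub
    (fun w _ _ => by show 0 ≤ FF.poleDiv f w; rw [FF.poleDiv_apply]; exact le_max_right _ _)
  rw [Finset.sum_insert (by simp [infty_ne_zero p, Ne.symm hcon.1]),
    Finset.sum_insert (by simp [Ne.symm hcon.2]), Finset.sum_singleton, FF.poleDiv_apply,
    FF.poleDiv_apply, FF.poleDiv_apply, max_eq_left (by omega), max_eq_left (by omega),
    max_eq_left (by omega)] at hle
  push_cast at h
  omega

theorem eq_cusp_of_ord_jBar {v : XPlace p} (hv : v.ord (jBar p) < 0) :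
    v = inftyPlace p ∨ v = zeroPlace p :=
  eq_cusp_of_finrank p Disc.transcendental_jBar Disc.finrank_jBar
    (by rw [ord_infty_jBar, ord_zeroPlace_jBar]; ring) (by rw [ord_infty_jBar]; norm_num)
    (by rw [ord_zeroPlace_jBar]; simp [(Fact.out : p.Prime).pos]) hv

theorem eq_cusp_of_ord_jNBar {v : XPlace p} (hv : v.ord (jNBar p) < 0) :
    v = inftyPlace p ∨ v = zeroPlace p :=
  eq_cusp_of_finrank p (FF.transcendental_of_ord_ne_zero (inftyPlace p)
      (by rw [ord_infty_jNBar]; have := (Fact.out : p.Prime).pos; omega)) (finrank_jNBar p)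
    (by rw [ord_infty_jNBar, ord_zeroPlace_jNBar]; ring)
    (by rw [ord_infty_jNBar]; simp [(Fact.out : p.Prime).pos])
    (by rw [ord_zeroPlace_jNBar]; norm_num) hv

end Cusps

end Fermat.Agent.Mazur.CuspClass
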